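import Mathlib
import Fermat.Agent.TW.Flat.Defs
import Fermat.Agent.TW.Local.StrictOrd
import Fermat.Agent.TW.Local.FrobGen

/-!
# FLAT-ORD-COUNT, matrix side

Triangular calculus for the ordinary flat condition `IsFlOrd` relative to the line `k·v0`.
-/

set_option autoImplicit false

namespace Fermat.Agent.TW.Flat.OrdCnt

open Fermat.Agent.S53 Fermat.Agent.TW Fermat.Agent.TW.StrictOrd Fermat.Agent.TW.Flat

local notation "Qb" => AlgebraicClosure ℚ

noncomputable section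

variable {k : Type} [Field k]

/-! ### Linear algebra around `E_v` -/

theorem Emat_mul_Emat (v : Fin 2 → k) : Emat v * Emat v = 0 := by
  ext i j
  simp only [Matrix.mul_apply, Fin.sum_univ_two, Emat_apply, vperp_zero, vperp_one,
    Matrix.zero_apply]
  ring

theorem mul_Emat_of_mulVec (X : Mat2 k) (v : Fin 2 → k) (x : k) (h : X.mulVec v = x • v) :
    X * Emat v = x • Emat v := by
  have h0 := congrFun h 0
  have h1 := congrFun h 1
  simp only [Matrix.mulVec, dotProduct, Fin.sum_univ_two, Pi.smul_apply, smul_eq_mul] at h0 h1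
  ext i j
  simp only [Matrix.mul_apply, Fin.sum_univ_two, Emat_apply, Matrix.smul_apply, smul_eq_mul]
  fin_cases i
  · simp only [Fin.zero_eta]
    linear_combination (vperp v j) * h0
  · simp only [Fin.mk_one]
    linear_combination (vperp v j) * h1

theorem Emat_mul_of_mulVec (X : Mat2 k) (hX : X.trace = 0) (v : Fin 2 → k) (x : k)
    (h : X.mulVec v = x • v) : Emat v * X = (-x) • Emat v := by
  have h0 := congrFun h 0
  have h1 := congrFun h 1
  simp only [Matrix.mulVec, dotProduct, Fin.sum_univ_two, Pi.smul_apply, smul_eq_mul] at h0 h1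
  rw [Matrix.trace_fin_two] at hX
  ext i j
  simp only [Matrix.mul_apply, Fin.sum_univ_two, Emat_apply, Matrix.smul_apply, smul_eq_mul,
    vperp_zero, vperp_one]
  fin_cases j
  · simp only [Fin.zero_eta, vperp_zero]
    linear_combination (v i) * h1 - (v i * v 1) * hX
  · simp only [Fin.mk_one, vperp_one]
    linear_combination (-(v i)) * h0 + (v i * v 0) * hX

/-- A trace-zero matrix with image in the line `k·v` kills `v`. -/
theorem mulVec_self_eq_zero_of_image {v : Fin 2 → k} (_hv : v ≠ 0) (Y : Mat2 k) (hY : Y.trace = 0)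
    (h : ∀ w : Fin 2 → k, ∃ a : k, Y.mulVec w = a • v) : Y.mulVec v = 0 := by
  obtain ⟨a, ha⟩ := h v
  obtain ⟨t0, ht0⟩ := h (Pi.single 0 1)
  obtain ⟨t1, ht1⟩ := h (Pi.single 1 1)
  rw [Matrix.mulVec_single_one] at ht0 ht1
  have e00 : Y 0 0 = t0 * v 0 := by simpa using congrFun ht0 0
  have e10 : Y 1 0 = t0 * v 1 := by simpa using congrFun ht0 1
  have e01 : Y 0 1 = t1 * v 0 := by simpa using congrFun ht1 0
  have e11 : Y 1 1 = t1 * v 1 := by simpa using congrFun ht1 1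
  rw [Matrix.trace_fin_two, e00, e11] at hY
  funext i
  simp only [Matrix.mulVec, dotProduct, Fin.sum_univ_two, Pi.zero_apply]
  fin_cases i
  · simp only [Fin.zero_eta]
    rw [e00, e01]
    linear_combination (v 0) * hY
  · simp only [Fin.mk_one]
    rw [e10, e11]
    linear_combination (v 1) * hY

/-- A trace-zero matrix with image in the line `k·v` is a multiple of `E_v`. -/
theorem exists_eq_smul_Emat_of_image {v : Fin 2 → k} (hv : v ≠ 0) (Y : Mat2 k) (hY : Y.trace = 0)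
    (h : ∀ w : Fin 2 → k, ∃ a : k, Y.mulVec w = a • v) : ∃ f : k, Y = f • Emat v :=
  exists_eq_smul_Emat hv Y hY (mulVec_self_eq_zero_of_image hv Y hY h)

/-- If `M v = a v` and `M w - w ∈ k·v` for all `w`, then `det M = a`. -/
theorem det_eq_of_shape {v : Fin 2 → k} (hv : v ≠ 0) (M : Mat2 k) (a : k)
    (h1 : M.mulVec v = a • v) (h2 : ∀ w : Fin 2 → k, ∃ t : k, M.mulVec w - w = t • v) :
    M.det = a := by
  obtain ⟨t0, ht0⟩ := h2 (Pi.single 0 1)
  obtain ⟨t1, ht1⟩ := h2 (Pi.single 1 1)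
  rw [Matrix.mulVec_single_one] at ht0 ht1
  have e00 : M 0 0 = 1 + t0 * v 0 := by
    have := congrFun ht0 0
    simp at this
    linear_combination this
  have e10 : M 1 0 = t0 * v 1 := by
    have := congrFun ht0 1
    simp at this
    linear_combination this
  have e01 : M 0 1 = t1 * v 0 := by
    have := congrFun ht1 0
    simp at this
    linear_combination this
  have e11 : M 1 1 = 1 + t1 * v 1 := by
    have := congrFun ht1 1
    simp at this
    linear_combination this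
  have g0 := congrFun h1 0
  have g1 := congrFun h1 1
  simp only [Matrix.mulVec, dotProduct, Fin.sum_univ_two, Pi.smul_apply, smul_eq_mul] at g0 g1
  rw [e00, e01] at g0
  rw [e10, e11] at g1
  rw [Matrix.det_fin_two, e00, e01, e10, e11]
  have key : (1 + t0 * v 0 + t1 * v 1 - a) * v 0 = 0 ∧ (1 + t0 * v 0 + t1 * v 1 - a) * v 1 = 0 :=
    ⟨by linear_combination g0, by linear_combination g1⟩
  have hne : ¬ (v 0 = 0 ∧ v 1 = 0) := by
    rintro ⟨h0, h1'⟩
    apply hv
    funext i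
    fin_cases i
    · exact h0
    · exact h1'
  have hz : 1 + t0 * v 0 + t1 * v 1 - a = 0 := by
    by_contra hz
    exact hne ⟨(mul_eq_zero.mp key.1).resolve_left hz, (mul_eq_zero.mp key.2).resolve_left hz⟩
  linear_combination hz

/-- If `M v = v` and `M w - w ∈ k·v` for all `w`, then `M = 1 + b E_v`. -/
theorem exists_eq_one_add_smul_Emat {v : Fin 2 → k} (hv : v ≠ 0) (M : Mat2 k)
    (h1 : M.mulVec v = v) (h2 : ∀ w : Fin 2 → k, ∃ t : k, M.mulVec w - w = t • v) :
    ∃ b : k, M = 1 + b • Emat v := by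
  have hdet : M.det = 1 := det_eq_of_shape hv M 1 (by rw [h1, one_smul]) h2
  have hN : ∀ w : Fin 2 → k, ∃ t : k, (M - 1).mulVec w = t • v := by
    intro w
    obtain ⟨t, ht⟩ := h2 w
    exact ⟨t, by rw [Matrix.sub_mulVec, Matrix.one_mulVec, ht]⟩
  have hNv : (M - 1).mulVec v = 0 := by
    rw [Matrix.sub_mulVec, Matrix.one_mulVec, h1, sub_self]
  -- trace of `M - 1`
  obtain ⟨t0, ht0⟩ := hN (Pi.single 0 1)
  obtain ⟨t1, ht1⟩ := hN (Pi.single 1 1)
  rw [Matrix.mulVec_single_one] at ht0 ht1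
  have e00 : (M - 1) 0 0 = t0 * v 0 := by simpa using congrFun ht0 0
  have e10 : (M - 1) 1 0 = t0 * v 1 := by simpa using congrFun ht0 1
  have e01 : (M - 1) 0 1 = t1 * v 0 := by simpa using congrFun ht1 0
  have e11 : (M - 1) 1 1 = t1 * v 1 := by simpa using congrFun ht1 1
  have g0 := congrFun hNv 0
  have g1 := congrFun hNv 1
  simp only [Matrix.mulVec, dotProduct, Fin.sum_univ_two, Pi.zero_apply] at g0 g1
  rw [e00, e01] at g0
  rw [e10, e11] at g1
  have hne : ¬ (v 0 = 0 ∧ v 1 = 0) := by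
    rintro ⟨h0, h1'⟩
    apply hv
    funext i
    fin_cases i
    · exact h0
    · exact h1'
  have hz : t0 * v 0 + t1 * v 1 = 0 := by
    by_contra hz
    have k0 : (t0 * v 0 + t1 * v 1) * v 0 = 0 := by linear_combination g0
    have k1 : (t0 * v 0 + t1 * v 1) * v 1 = 0 := by linear_combination g1
    exact hne ⟨(mul_eq_zero.mp k0).resolve_left hz, (mul_eq_zero.mp k1).resolve_left hz⟩
  have htr : (M - 1).trace = 0 := by
    rw [Matrix.trace_fin_two, e00, e11]
    exact hz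
  obtain ⟨b, hb⟩ := exists_eq_smul_Emat hv (M - 1) htr hNv
  exact ⟨b, by rw [← hb]; abel⟩

/-! ### The shape of `rb` on inertia -/

variable {rb : GQ →* Mat2 k} {P : ValuationSubring Qb} {p : ℕ} {v0 : Fin 2 → k}

theorem mem_decomp_of_mem_inertia {σ : GQ} (hσ : σ ∈ P.inertiaSubgroupIn ℚ) :
    σ ∈ P.decompositionSubgroup ℚ :=
  inertiaSubgroupIn_le_decompositionSubgroup P hσ

/-- `det rb = 1` on `I'`. -/
theorem det_eq_one_of_mem_inertiaCyc (hres : ResidualHyp rb p) {σ : GQ}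
    (hσ : σ ∈ inertiaCyc P p) : (rb σ).det = 1 := by
  have h := hres.detCyc σ 1 (fun μ hμ => by rw [pow_one]; exact hσ.2 μ hμ)
  rw [h, Nat.cast_one]

/-- On inertia, the eigenvalue on `v0` is the determinant. -/
theorem det_eq_eigen_of_mem_inertia (hsh : OrdShape rb P v0) {σ : GQ}
    (hσ : σ ∈ P.inertiaSubgroupIn ℚ) {a : k} (ha : (rb σ).mulVec v0 = a • v0) :
    (rb σ).det = a :=
  det_eq_of_shape hsh.1 (rb σ) a ha (hsh.2.2 σ hσ)

theorem rb_mulVec_of_mem_inertiaCyc (hres : ResidualHyp rb p) (hsh : OrdShape rb P v0) {σ : GQ}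
    (hσ : σ ∈ inertiaCyc P p) : (rb σ).mulVec v0 = v0 := by
  obtain ⟨a, ha⟩ := hsh.2.1 σ (mem_decomp_of_mem_inertia hσ.1)
  have h1 := det_eq_eigen_of_mem_inertia hsh hσ.1 ha
  rw [det_eq_one_of_mem_inertiaCyc hres hσ] at h1
  rw [ha, ← h1, one_smul]

theorem exists_rb_eq_of_mem_inertiaCyc (hres : ResidualHyp rb p) (hsh : OrdShape rb P v0)
    {σ : GQ} (hσ : σ ∈ inertiaCyc P p) : ∃ b : k, rb σ = 1 + b • Emat v0 :=
  exists_eq_one_add_smul_Emat hsh.1 (rb σ) (rb_mulVec_of_mem_inertiaCyc hres hsh hσ)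
    (hsh.2.2 σ hσ.1)

/-- The adjoint action on `E_v` for an eigenvector `v`. -/
theorem adAct_Emat_of_eigen (rb : GQ →* Mat2 k) (σ : GQ) (v : Fin 2 → k) (x : k)
    (h : (rb σ).mulVec v = x • v) :
    adAct rb 1 σ (Emat v) = (x * x / (rb σ).det) • Emat v := by
  have hdet := det_rb_ne_zero rb σ
  rw [adAct_apply, one_hom_apply_coe, one_smul, rb_inv_eq, Matrix.mul_smul, mul_Emat_mul_adjugate,
    h, Emat_smul, smul_smul]
  congr 1
  field_simp

theorem adAct_Emat_of_mem_inertiaCyc (hres : ResidualHyp rb p) (hsh : OrdShape rb P v0) {σ : GQ}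
    (hσ : σ ∈ inertiaCyc P p) : adAct rb 1 σ (Emat v0) = Emat v0 := by
  rw [adAct_Emat_of_eigen rb σ v0 1 (by rw [one_smul]; exact rb_mulVec_of_mem_inertiaCyc hres hsh hσ),
    det_eq_one_of_mem_inertiaCyc hres hσ, mul_one, div_one, one_smul]

/-- On inertia the adjoint action on `E_{v0}` is through the cyclotomic exponent. -/
theorem adAct_Emat_of_mem_inertia (hres : ResidualHyp rb p) (hsh : OrdShape rb P v0) {τ : GQ}
    (hτ : τ ∈ P.inertiaSubgroupIn ℚ) (n : ℕ) (hn : ∀ μ : Qb, μ ^ p = 1 → τ μ = μ ^ n) :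
    adAct rb 1 τ (Emat v0) = (n : k) • Emat v0 := by
  obtain ⟨a, ha⟩ := hsh.2.1 τ (mem_decomp_of_mem_inertia hτ)
  have h1 := det_eq_eigen_of_mem_inertia hsh hτ ha
  have h2 := hres.detCyc τ n hn
  have ha0 : a ≠ 0 := by rw [← h1]; exact det_rb_ne_zero rb τ
  rw [adAct_Emat_of_eigen rb τ v0 a ha, h1, mul_div_assoc, div_self ha0, mul_one, ← h1, h2]

/-- On `I'`, the coboundary of a Borel matrix `X` (`X v0 = x v0`) is `-2x (rb σ - 1)`. -/
theorem cob_eq_of_mem_inertiaCyc (hres : ResidualHyp rb p) (hsh : OrdShape rb P v0) {σ : GQ}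
    (hσ : σ ∈ inertiaCyc P p) (X : Mat2 k) (hX : X.trace = 0) (x : k)
    (hx : X.mulVec v0 = x • v0) :
    adAct rb 1 σ X - X = (-(2 * x)) • (rb σ - 1) := by
  obtain ⟨b, hb⟩ := exists_rb_eq_of_mem_inertiaCyc hres hsh hσ
  have hXE := mul_Emat_of_mulVec X v0 x hx
  have hEX := Emat_mul_of_mulVec X hX v0 x hx
  have hEE := Emat_mul_Emat v0
  have h2 : (1 - b • Emat v0) * (1 + b • Emat v0) = 1 := by
    rw [mul_add, mul_one, sub_mul, one_mul, Matrix.smul_mul, Matrix.mul_smul, hEE, smul_zero,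
      smul_zero, sub_zero, sub_add_cancel]
  have hinv : rb σ⁻¹ = 1 - b • Emat v0 := by
    calc rb σ⁻¹ = (1 - b • Emat v0) * (rb σ * rb σ⁻¹) := by
          rw [← mul_assoc, hb, h2, one_mul]
      _ = 1 - b • Emat v0 := by rw [rb_mul_rb_inv, mul_one]
  have e1 : (1 + b • Emat v0) * X = X - (b * x) • Emat v0 := by
    rw [add_mul, one_mul, Matrix.smul_mul, hEX, smul_smul, mul_neg, neg_smul, sub_eq_add_neg]
  have e2 : (X - (b * x) • Emat v0) * (1 - b • Emat v0) =
      X - (b * x) • Emat v0 - (b * x) • Emat v0 := by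
    rw [mul_sub, mul_one, sub_mul, Matrix.mul_smul, hXE, Matrix.smul_mul, Matrix.mul_smul, hEE,
      smul_zero, smul_zero, sub_zero, smul_smul]
  rw [adAct_apply, one_hom_apply_coe, one_smul, hinv, hb, e1, e2, add_sub_cancel_left]
  module

/-! ### The space of ordinary flat cocycles -/

/-- Cocycles of the decomposition group satisfying the ordinary flat condition. -/
def L0 (rb : GQ →* Mat2 k) (P : ValuationSubring Qb) (p : ℕ) (v0 : Fin 2 → k) :
    Submodule k (↥(P.decompositionSubgroup ℚ) → Mat2 k) where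
  carrier := {c | c ∈ Z1On (P.decompositionSubgroup ℚ) rb 1 ∧ IsFlOrd P p v0 c}
  add_mem' := fun h h' => ⟨add_mem h.1 h'.1, h.2.add h'.2⟩
  zero_mem' := ⟨zero_mem _, isFlOrd_zero P p v0⟩
  smul_mem' := fun a _ h => ⟨Submodule.smul_mem _ a h.1, h.2.smul a⟩

theorem mem_L0 (c : ↥(P.decompositionSubgroup ℚ) → Mat2 k) :
    c ∈ L0 rb P p v0 ↔ c ∈ Z1On (P.decompositionSubgroup ℚ) rb 1 ∧ IsFlOrd P p v0 c := Iff.rfl

theorem LOrd_eq_range (hrb : FiniteLevel rb) :
    LOrd rb P p v0 = LinearMap.range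
      ((cobOn (P.decompositionSubgroup ℚ) rb).coprod (L0 rb P p v0).subtype) := by
  ext c
  rw [mem_LOrd, LinearMap.mem_range]
  constructor
  · rintro ⟨hc, X, hX, hfl⟩
    have hZ : c - resOn (P.decompositionSubgroup ℚ) (cob rb 1 X) ∈
        Z1On (P.decompositionSubgroup ℚ) rb 1 :=
      sub_mem hc (cobOn_mem_Z1On (P.decompositionSubgroup ℚ) hrb ⟨X, hX⟩)
    refine ⟨(⟨X, hX⟩, ⟨c - resOn (P.decompositionSubgroup ℚ) (cob rb 1 X), hZ, hfl⟩), ?_⟩
    rw [LinearMap.coprod_apply]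
    show resOn (P.decompositionSubgroup ℚ) (cob rb 1 X) +
      (c - resOn (P.decompositionSubgroup ℚ) (cob rb 1 X)) = c
    abel
  · rintro ⟨⟨X, c'⟩, rfl⟩
    rw [LinearMap.coprod_apply]
    refine ⟨add_mem (cobOn_mem_Z1On (P.decompositionSubgroup ℚ) hrb X) c'.2.1, (X : Mat2 k), X.2, ?_⟩
    have e : cobOn (P.decompositionSubgroup ℚ) rb X + (L0 rb P p v0).subtype c' -
        resOn (P.decompositionSubgroup ℚ) (cob rb 1 (X : Mat2 k)) = (c' : _ → Mat2 k) := by
      show resOn (P.decompositionSubgroup ℚ) (cob rb 1 (X : Mat2 k)) + (c' : _ → Mat2 k) -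
        resOn (P.decompositionSubgroup ℚ) (cob rb 1 (X : Mat2 k)) = (c' : _ → Mat2 k)
      abel
    rw [e]
    exact c'.2.2

/-- The coboundary of a Borel matrix is ordinary flat (uses that `rb` is peu ramifié). -/
theorem cobOn_mem_L0 (hres : ResidualHyp rb p) (hsh : OrdShape rb P v0) (hpeu : PeuRam rb P p)
    (X : sl2 k) (hX : borFun v0 X = 0) :
    cobOn (P.decompositionSubgroup ℚ) rb X ∈ L0 rb P p v0 := by
  have hv := hsh.1
  obtain ⟨x, hx⟩ := exists_smul_of_vperp_dotProduct_eq_zero hv _ hX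
  have hZ := cobOn_mem_Z1On (P.decompositionSubgroup ℚ) hres.finiteLevel' X
  have hkill : ∀ σ : ↥(P.decompositionSubgroup ℚ),
      (cobOn (P.decompositionSubgroup ℚ) rb X σ).mulVec v0 = 0 := by
    intro σ
    obtain ⟨a, ha⟩ := hsh.2.1 σ σ.2
    have ha0 := eigen_ne_zero rb σ hv a ha
    rw [cobOn_apply, adAct_apply, one_hom_apply_coe, one_smul, Matrix.sub_mulVec,
      ← Matrix.mulVec_mulVec, ← Matrix.mulVec_mulVec, rb_inv_mulVec rb σ a ha0 ha,
      Matrix.mulVec_smul, hx, Matrix.mulVec_smul, Matrix.mulVec_smul, ha, smul_smul, smul_smul,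
      mul_right_comm, inv_mul_cancel₀ ha0, one_mul, sub_self]
  have hform : ∀ σ : ↥(P.decompositionSubgroup ℚ), ∃ f : k,
      cobOn (P.decompositionSubgroup ℚ) rb X σ = f • Emat v0 := fun σ =>
    exists_eq_smul_Emat hv _ (hZ.1 σ) (hkill σ)
  refine ⟨hZ, fun σ => ⟨0, by rw [hkill σ, zero_smul]⟩, fun σ _ w => ?_, fun ψ => ?_⟩
  · obtain ⟨f, hf⟩ := hform σ
    exact ⟨f * (vperp v0 ⬝ᵥ w), by rw [hf, Matrix.smul_mulVec, Emat_mulVec, smul_smul]⟩
  · obtain ⟨z, hz, hz'⟩ := hpeu (smulChar (-(2 * x)) ψ)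
    refine ⟨z, hz, fun σ hσ => ?_⟩
    rw [hz' σ hσ, smulChar_apply, cobOn_apply,
      cob_eq_of_mem_inertiaCyc hres hsh hσ (X : Mat2 k) X.2 x hx]

/-- The counting skeleton: `#LOrd ≤ #k · #L0`. -/
theorem card_LOrd_le [Finite k] (hres : ResidualHyp rb p) (hsh : OrdShape rb P v0)
    (hpeu : PeuRam rb P p) (hfin : Finite (L0 rb P p v0))
    (hcard : Nat.card (L0 rb P p v0) ≤ Nat.card k ^ 3) :
    Finite (LOrd rb P p v0) ∧ Nat.card (LOrd rb P p v0) ≤ Nat.card k ^ 4 := by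
  have hrb := hres.finiteLevel'
  have : Finite (sl2 k) := Finite.of_injective _ Subtype.val_injective
  set Ψ : (sl2 k × L0 rb P p v0) →ₗ[k] (↥(P.decompositionSubgroup ℚ) → Mat2 k) :=
    (cobOn (P.decompositionSubgroup ℚ) rb).coprod (L0 rb P p v0).subtype with hΨ
  have hrange : LinearMap.range Ψ = LOrd rb P p v0 := (LOrd_eq_range hrb).symm
  have hLfin : Finite (LOrd rb P p v0) := by
    rw [← hrange]
    exact Finite.of_surjective (fun x => (⟨Ψ x, LinearMap.mem_range_self Ψ x⟩ : LinearMap.range Ψ))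
      (by rintro ⟨_, x, rfl⟩; exact ⟨x, rfl⟩)
  refine ⟨hLfin, ?_⟩
  have h1 := card_eq_card_ker_mul_card_range Ψ.toAddMonoidHom
  have hr : Nat.card Ψ.toAddMonoidHom.range = Nat.card (LOrd rb P p v0) := by
    refine Nat.card_congr (Equiv.setCongr ?_)
    ext c
    rw [← hrange]
    rfl
  rw [hr, Nat.card_prod, ResHyp.card_sl2] at h1
  have hker : Nat.card k ^ 2 ≤ Nat.card Ψ.toAddMonoidHom.ker := by
    refine (card_ker_borFun_ge v0).trans ?_
    have hmemT : ∀ X : (borFun v0).toAddMonoidHom.ker,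
        -cobOn (P.decompositionSubgroup ℚ) rb X.1 ∈ L0 rb P p v0 := fun X =>
      neg_mem (cobOn_mem_L0 hres hsh hpeu X.1 X.2)
    refine Nat.card_le_card_of_injective
      (fun X => (⟨(X.1, ⟨-cobOn (P.decompositionSubgroup ℚ) rb X.1, hmemT X⟩), ?_⟩ :
        Ψ.toAddMonoidHom.ker)) ?_
    · rw [AddMonoidHom.mem_ker]
      show cobOn (P.decompositionSubgroup ℚ) rb X.1 +
        -cobOn (P.decompositionSubgroup ℚ) rb X.1 = 0
      rw [add_neg_cancel]
    · intro X Y h
      have h2 := congrArg (fun z : Ψ.toAddMonoidHom.ker => z.1.1) h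
      exact Subtype.ext h2
  have hk : 0 < Nat.card k := Nat.card_pos
  have h3 : Nat.card k ^ 2 * Nat.card (LOrd rb P p v0) ≤ Nat.card k ^ 2 * Nat.card k ^ 4 := by
    calc Nat.card k ^ 2 * Nat.card (LOrd rb P p v0)
        ≤ Nat.card Ψ.toAddMonoidHom.ker * Nat.card (LOrd rb P p v0) := Nat.mul_le_mul_right _ hker
      _ = Nat.card k ^ 3 * Nat.card (L0 rb P p v0) := h1.symm
      _ ≤ Nat.card k ^ 3 * Nat.card k ^ 3 := Nat.mul_le_mul_left _ hcard
      _ = Nat.card k ^ 2 * Nat.card k ^ 4 := by ring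
  exact Nat.le_of_mul_le_mul_left h3 (pow_pos hk 2)

end

end Fermat.Agent.TW.Flat.OrdCnt
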