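import Mathlib
import Fermat.Agent.TW.Flat.Defs
import Fermat.Agent.TW.Flat.UnitLam
import Fermat.Agent.TW.Flat.Local.Unr
import Fermat.Agent.TW.Flat.Local.CloseRoot
import Fermat.Agent.TW.Local.StrictOrd
import Fermat.Agent.TW.Local.KummerCount
import Fermat.Agent.TW.Local.FrobGen
import Fermat.Agent.Lib.LinAlg.FrobFixed
import Fermat.Agent.Lib.FinFlat.Dual

/-!
# FLAT-ORD-COUNT, Kummer side

`P` a valuation subring of `Qb` over `p`, `I` its inertia group, `I' = inertiaCyc P p`.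
`KumSet P p k φ e` is the set of functions `β : I' → k` which are equivariant for the conjugation
by `I` (through the cyclotomic exponent) and by a Frobenius element `φ` (through the scalar `e`),
and all of whose additive characters are Kummer characters of units of `P`.
The main result `kumSet_finite_card_le` bounds it by `#k`.
-/

set_option autoImplicit false
set_option linter.unusedSectionVars false

namespace Fermat.Agent.TW.Flat.OrdCnt

open Fermat.Agent.S53 Fermat.Agent.TW Fermat.Agent.TW.StrictOrd Fermat.Agent.TW.Flat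
open Fermat.Agent.TW.Flat.UnitLam

local notation "Qb" => AlgebraicClosure ℚ

noncomputable section

/-! ### The mod `p` cyclotomic character -/

section Cyclo

variable {p : ℕ} [Fact p.Prime]

/-- The mod `p` cyclotomic character. -/
def cycP (p : ℕ) [Fact p.Prime] (σ : GQ) : ZMod p :=
  ((exists_cyclo_exponent p σ).choose : ZMod p)

theorem apply_root (σ : GQ) {μ : Qb} (hμ : μ ^ p = 1) : σ μ = μ ^ (cycP p σ).val := by
  rw [cycP, KummerCount.pow_val_natCast hμ]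
  exact (exists_cyclo_exponent p σ).choose_spec μ hμ

theorem exists_primitive (p : ℕ) [Fact p.Prime] : ∃ ζ : Qb, IsPrimitiveRoot ζ p := by
  have hp : p.Prime := Fact.out
  have : NeZero (p : ℚ) := ⟨by exact_mod_cast hp.ne_zero⟩
  exact HasEnoughRootsOfUnity.exists_primitiveRoot (AlgebraicClosure ℚ) p

theorem cycP_eq_of_apply {ζ : Qb} (hζ : IsPrimitiveRoot ζ p) (σ : GQ) (j : ZMod p)
    (h : σ ζ = ζ ^ j.val) : cycP p σ = j := by
  have : NeZero p := ⟨(Fact.out : p.Prime).ne_zero⟩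
  exact KummerCount.pow_val_injective hζ ((apply_root σ hζ.pow_eq_one).symm.trans h)

theorem cycP_mul (σ τ : GQ) : cycP p (σ * τ) = cycP p σ * cycP p τ := by
  obtain ⟨ζ, hζ⟩ := exists_primitive p
  apply cycP_eq_of_apply hζ
  rw [AlgEquiv.mul_apply, apply_root τ hζ.pow_eq_one, map_pow, apply_root σ hζ.pow_eq_one,
    KummerCount.pow_val_mul hζ.pow_eq_one]

theorem cycP_one : cycP p (1 : GQ) = 1 := by
  obtain ⟨ζ, hζ⟩ := exists_primitive p
  apply cycP_eq_of_apply hζ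
  rw [AlgEquiv.one_apply, ZMod.val_one, pow_one]

theorem cycP_inv (σ : GQ) : cycP p σ⁻¹ = (cycP p σ)⁻¹ := by
  apply eq_inv_of_mul_eq_one_left
  rw [← cycP_mul, inv_mul_cancel, cycP_one]

theorem cycP_ne_zero (σ : GQ) : cycP p σ ≠ 0 := by
  intro h
  have h1 := cycP_mul (p := p) σ σ⁻¹
  rw [mul_inv_cancel, cycP_one, h, zero_mul] at h1
  exact one_ne_zero h1

theorem cycP_eq_one_iff (σ : GQ) : cycP p σ = 1 ↔ ∀ μ : Qb, μ ^ p = 1 → σ μ = μ := by
  constructor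
  · intro h μ hμ
    rw [apply_root σ hμ, h, ZMod.val_one, pow_one]
  · intro h
    obtain ⟨ζ, hζ⟩ := exists_primitive p
    apply cycP_eq_of_apply hζ
    rw [h ζ hζ.pow_eq_one, ZMod.val_one, pow_one]

variable {P : ValuationSubring Qb}

theorem mem_inertiaCyc_iff_cycP (σ : GQ) :
    σ ∈ inertiaCyc P p ↔ σ ∈ P.inertiaSubgroupIn ℚ ∧ cycP p σ = 1 := by
  rw [mem_inertiaCyc, cycP_eq_one_iff]

theorem mem_decomp_of_mem_inertia' {σ : GQ} (hσ : σ ∈ P.inertiaSubgroupIn ℚ) :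
    σ ∈ P.decompositionSubgroup ℚ :=
  inertiaSubgroupIn_le_decompositionSubgroup P hσ

theorem conj_mem_inertiaCyc {d σ : GQ} (hd : d ∈ P.decompositionSubgroup ℚ)
    (hσ : σ ∈ inertiaCyc P p) : d * σ * d⁻¹ ∈ inertiaCyc P p := by
  rw [mem_inertiaCyc_iff_cycP] at hσ ⊢
  refine ⟨Away.conj_mem_inertiaSubgroupIn P hd hσ.1, ?_⟩
  rw [cycP_mul, cycP_mul, hσ.2, mul_one, cycP_inv, mul_inv_cancel₀ (cycP_ne_zero d)]

theorem conj_mem_inertiaCyc' {d σ : GQ} (hd : d ∈ P.decompositionSubgroup ℚ)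
    (hσ : σ ∈ inertiaCyc P p) : d⁻¹ * σ * d ∈ inertiaCyc P p := by
  have h := conj_mem_inertiaCyc (inv_mem hd) hσ
  rwa [inv_inv] at h

theorem gq_apply_inv_apply (σ : GQ) (b : Qb) : σ (σ⁻¹ b) = b := by
  show (σ * σ⁻¹) b = b
  rw [mul_inv_cancel]
  rfl

/-- Two elements of inertia with the same cyclotomic character agree on `I'`-fixed elements. -/
theorem apply_eq_of_cycP_eq {x : Qb} (hx : ∀ σ ∈ inertiaCyc P p, σ x = x) {α β : GQ}
    (hα : α ∈ P.inertiaSubgroupIn ℚ) (hβ : β ∈ P.inertiaSubgroupIn ℚ)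
    (h : cycP p α = cycP p β) : α x = β x := by
  have hmem : β⁻¹ * α ∈ inertiaCyc P p := by
    rw [mem_inertiaCyc_iff_cycP]
    refine ⟨mul_mem (inv_mem hβ) hα, ?_⟩
    rw [cycP_mul, cycP_inv, h, inv_mul_cancel₀ (cycP_ne_zero β)]
  have h1 := hx _ hmem
  rw [AlgEquiv.mul_apply] at h1
  calc α x = β (β⁻¹ (α x)) := (gq_apply_inv_apply β _).symm
    _ = β x := by rw [h1]

/-- The decomposition group preserves `I'`-fixed elements. -/
theorem fixed_apply_decomp {x : Qb} (hx : ∀ σ ∈ inertiaCyc P p, σ x = x) {d : GQ}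
    (hd : d ∈ P.decompositionSubgroup ℚ) : ∀ σ ∈ inertiaCyc P p, σ (d x) = d x := by
  intro σ hσ
  have h1 := hx _ (conj_mem_inertiaCyc' hd hσ)
  rw [AlgEquiv.mul_apply, AlgEquiv.mul_apply] at h1
  calc σ (d x) = d (d⁻¹ (σ (d x))) := (gq_apply_inv_apply d _).symm
    _ = d x := by rw [h1]

theorem isPUnit_apply {d : GQ} (hd : d ∈ P.decompositionSubgroup ℚ) {z : Qb}
    (hz : IsPUnit P z) : IsPUnit P (d z) := by
  refine ⟨(map_ne_zero d).2 hz.1,
    Fermat.Agent.Lib.Tame.apply_mem_of_mem_decomposition hd hz.2.1, ?_⟩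
  rw [← map_inv₀]
  exact Fermat.Agent.Lib.Tame.apply_mem_of_mem_decomposition hd hz.2.2

/-! ### The norm from `Qb^{I'}` to `Qb^I` -/

open Classical in
/-- The image of inertia under the cyclotomic character. -/
def Jset (P : ValuationSubring Qb) (p : ℕ) [Fact p.Prime] : Finset (ZMod p) :=
  have : NeZero p := ⟨(Fact.out : p.Prime).ne_zero⟩
  Finset.univ.filter (fun j => ∃ τ ∈ P.inertiaSubgroupIn ℚ, cycP p τ = j)

open Classical in
/-- Representatives of `I / I'`. -/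
def tauJ (P : ValuationSubring Qb) (p : ℕ) [Fact p.Prime] (j : ZMod p) : GQ :=
  if h : ∃ τ ∈ P.inertiaSubgroupIn ℚ, cycP p τ = j then h.choose else 1

theorem mem_Jset (j : ZMod p) :
    j ∈ Jset P p ↔ ∃ τ ∈ P.inertiaSubgroupIn ℚ, cycP p τ = j := by
  unfold Jset
  simp only [Finset.mem_filter, Finset.mem_univ, true_and]

theorem tauJ_mem (j : ZMod p) : tauJ P p j ∈ P.inertiaSubgroupIn ℚ := by
  unfold tauJ
  split_ifs with h
  · exact h.choose_spec.1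
  · exact one_mem _

theorem cycP_tauJ {j : ZMod p} (hj : j ∈ Jset P p) : cycP p (tauJ P p j) = j := by
  rw [mem_Jset] at hj
  unfold tauJ
  rw [dif_pos hj]
  exact hj.choose_spec.2

theorem cycP_mem_Jset {τ : GQ} (hτ : τ ∈ P.inertiaSubgroupIn ℚ) : cycP p τ ∈ Jset P p :=
  (mem_Jset _).2 ⟨τ, hτ, rfl⟩

theorem mul_mem_Jset_iff {ρ : GQ} (hρ : ρ ∈ P.inertiaSubgroupIn ℚ) (j : ZMod p) :
    j ∈ Jset P p ↔ cycP p ρ * j ∈ Jset P p := by
  rw [mem_Jset, mem_Jset]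
  constructor
  · rintro ⟨τ, hτ, rfl⟩
    exact ⟨ρ * τ, mul_mem hρ hτ, cycP_mul ρ τ⟩
  · rintro ⟨τ, hτ, h⟩
    refine ⟨ρ⁻¹ * τ, mul_mem (inv_mem hρ) hτ, ?_⟩
    rw [cycP_mul, cycP_inv, h, inv_mul_cancel_left₀ (cycP_ne_zero ρ)]

/-- The norm `∏ τ_j x` over representatives of `I / I'`. -/
def Nm (P : ValuationSubring Qb) (p : ℕ) [Fact p.Prime] (x : Qb) : Qb :=
  ∏ j ∈ Jset P p, tauJ P p j x

theorem Nm_mul (x y : Qb) : Nm P p (x * y) = Nm P p x * Nm P p y := by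
  unfold Nm
  rw [← Finset.prod_mul_distrib]
  exact Finset.prod_congr rfl fun j _ => map_mul _ _ _

theorem Nm_pow (x : Qb) (n : ℕ) : Nm P p (x ^ n) = Nm P p x ^ n := by
  unfold Nm
  rw [← Finset.prod_pow]
  exact Finset.prod_congr rfl fun j _ => map_pow _ _ _

theorem Nm_ne_zero {x : Qb} (hx : x ≠ 0) : Nm P p x ≠ 0 := by
  unfold Nm
  exact Finset.prod_ne_zero_iff.2 fun j _ => (map_ne_zero _).2 hx

theorem isPUnit_Nm {x : Qb} (hx : IsPUnit P x) : IsPUnit P (Nm P p x) := by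
  unfold Nm
  exact Finset.prod_induction _ (IsPUnit P) (fun _ _ h h' => h.mul h') (isPUnit_one P)
    fun j _ => isPUnit_apply (mem_decomp_of_mem_inertia' (tauJ_mem j)) hx

/-- The norm of an `I'`-fixed element is `I`-fixed. -/
theorem Nm_fixed {x : Qb} (hx : ∀ σ ∈ inertiaCyc P p, σ x = x) {ρ : GQ}
    (hρ : ρ ∈ P.inertiaSubgroupIn ℚ) : ρ (Nm P p x) = Nm P p x := by
  unfold Nm
  rw [map_prod]
  refine Finset.prod_equiv (Equiv.mulLeft₀ (cycP p ρ) (cycP_ne_zero ρ))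
    (fun j => mul_mem_Jset_iff hρ j) fun j hj => ?_
  have hj' : cycP p ρ * j ∈ Jset P p := (mul_mem_Jset_iff hρ j).1 hj
  have h := apply_eq_of_cycP_eq hx (mul_mem hρ (tauJ_mem j)) (tauJ_mem (cycP p ρ * j))
    (by rw [cycP_mul, cycP_tauJ hj, cycP_tauJ hj'])
  rw [AlgEquiv.mul_apply] at h
  rw [h]
  rfl

/-- The norm commutes with the decomposition group on `I'`-fixed elements. -/
theorem Nm_apply_decomp {x : Qb} (hx : ∀ σ ∈ inertiaCyc P p, σ x = x) {d : GQ}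
    (hd : d ∈ P.decompositionSubgroup ℚ) : d (Nm P p x) = Nm P p (d x) := by
  unfold Nm
  rw [map_prod]
  refine Finset.prod_congr rfl fun j _ => ?_
  have hmem : d * tauJ P p j * d⁻¹ ∈ P.inertiaSubgroupIn ℚ :=
    Away.conj_mem_inertiaSubgroupIn P hd (tauJ_mem j)
  have h := apply_eq_of_cycP_eq (fixed_apply_decomp hx hd) hmem (tauJ_mem j)
    (by rw [cycP_mul, cycP_mul, cycP_inv, mul_comm (cycP p d), mul_assoc,
      mul_inv_cancel₀ (cycP_ne_zero d), mul_one])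
  rw [AlgEquiv.mul_apply, AlgEquiv.mul_apply, Away.gq_inv_apply_apply] at h
  exact h

theorem card_Jset_pos : 0 < (Jset P p).card :=
  Finset.card_pos.2 ⟨1, (mem_Jset _).2 ⟨1, one_mem _, cycP_one⟩⟩

theorem card_Jset_lt : (Jset P p).card < p := by
  classical
  have hp : p.Prime := Fact.out
  have : NeZero p := ⟨hp.ne_zero⟩
  have hsub : Jset P p ⊆ (Finset.univ : Finset (ZMod p)).erase 0 := by
    intro j hj
    obtain ⟨τ, -, rfl⟩ := (mem_Jset _).1 hj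
    exact Finset.mem_erase.2 ⟨cycP_ne_zero τ, Finset.mem_univ _⟩
  have h1 := Finset.card_le_card hsub
  rw [Finset.card_erase_of_mem (Finset.mem_univ _), Finset.card_univ, ZMod.card] at h1
  have := hp.pos
  omega

end Cyclo

/-! ### Kummer witnesses -/

section Kum

variable {p : ℕ} [Fact p.Prime] {P : ValuationSubring Qb} {k : Type} [Field k]

/-- Equivariance of a function on `I'` for the conjugation by inertia. -/
def EquivI (P : ValuationSubring Qb) (p : ℕ) (δ : ↥(inertiaCyc P p) → k) : Prop :=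
  ∀ τ ∈ P.inertiaSubgroupIn ℚ, ∀ n : ℕ, (∀ μ : Qb, μ ^ p = 1 → τ μ = μ ^ n) →
    ∀ σ σ' : ↥(inertiaCyc P p), (σ : GQ) * τ = τ * (σ' : GQ) → δ σ = (n : k) * δ σ'

/-- The Kummer set: functions on `I'`, equivariant for inertia and for `φ`, all of whose
additive characters are Kummer characters of units. -/
def KumSet (P : ValuationSubring Qb) (p : ℕ) (k : Type) [Field k] (φ : GQ) (e : k) :
    Set (↥(inertiaCyc P p) → k) :=
  {β | EquivI P p β ∧
    (∀ σ σ' : ↥(inertiaCyc P p), (σ : GQ) * φ = φ * (σ' : GQ) → β σ = e * β σ') ∧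
    ∀ ψ : AddChar k Qb, ∃ z : Qb, IsPUnit P z ∧
      ∀ σ : ↥(inertiaCyc P p), (σ : GQ) z = ψ (β σ) * z}

theorem EquivI.sub {δ δ' : ↥(inertiaCyc P p) → k} (h : EquivI P p δ) (h' : EquivI P p δ') :
    EquivI P p (δ - δ') := by
  intro τ hτ n hn σ σ' hc
  rw [Pi.sub_apply, Pi.sub_apply, h τ hτ n hn σ σ' hc, h' τ hτ n hn σ σ' hc, mul_sub]

theorem EquivI.mul_left {δ : ↥(inertiaCyc P p) → k} (h : EquivI P p δ) (a : k) :
    EquivI P p (fun σ => a * δ σ) := by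
  intro τ hτ n hn σ σ' hc
  show a * δ σ = (n : k) * (a * δ σ')
  rw [h τ hτ n hn σ σ' hc]
  ring

theorem addChar_pow_p (hk : (p : k) = 0) (ψ : AddChar k Qb) (t : k) : ψ t ^ p = 1 := by
  rw [← AddChar.map_nsmul_eq_pow, nsmul_eq_mul, hk, zero_mul, AddChar.map_zero_eq_one]

theorem addChar_ne_zero_of (hk : (p : k) = 0) (ψ : AddChar k Qb) (t : k) : ψ t ≠ 0 := by
  intro h
  have h1 := addChar_pow_p hk ψ t
  rw [h, zero_pow (Fact.out : p.Prime).ne_zero] at h1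
  exact zero_ne_one h1

/-- A conjugate `τ z`, `τ ∈ I`, has the same Kummer character on `I'` as `z`. -/
theorem apply_tau_char (hk : (p : k) = 0) (ψ : AddChar k Qb) {δ : ↥(inertiaCyc P p) → k}
    (hδ : EquivI P p δ) {z : Qb} (hz : ∀ σ : ↥(inertiaCyc P p), (σ : GQ) z = ψ (δ σ) * z)
    {τ : GQ} (hτ : τ ∈ P.inertiaSubgroupIn ℚ) (σ : ↥(inertiaCyc P p)) :
    (σ : GQ) (τ z) = ψ (δ σ) * τ z := by
  set σ' : ↥(inertiaCyc P p) :=
    ⟨τ⁻¹ * σ * τ, conj_mem_inertiaCyc' (mem_decomp_of_mem_inertia' hτ) σ.2⟩ with hσ'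
  have hcomm : (σ : GQ) * τ = τ * (σ' : GQ) := by
    show (σ : GQ) * τ = τ * (τ⁻¹ * σ * τ)
    group
  have h1 := hδ τ hτ (cycP p τ).val (fun μ hμ => apply_root τ hμ) σ σ' hcomm
  calc (σ : GQ) (τ z) = ((σ : GQ) * τ) z := rfl
    _ = (τ * (σ' : GQ)) z := by rw [hcomm]
    _ = τ ((σ' : GQ) z) := rfl
    _ = τ (ψ (δ σ')) * τ z := by rw [hz σ', map_mul]
    _ = ψ (δ σ') ^ (cycP p τ).val * τ z := by rw [apply_root τ (addChar_pow_p hk ψ _)]
    _ = ψ (δ σ) * τ z := by rw [h1, ← AddChar.map_nsmul_eq_pow, nsmul_eq_mul]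

/-- The Kummer character of the norm. -/
theorem Nm_char (hk : (p : k) = 0) (ψ : AddChar k Qb) {δ : ↥(inertiaCyc P p) → k}
    (hδ : EquivI P p δ) {z : Qb} (hz : ∀ σ : ↥(inertiaCyc P p), (σ : GQ) z = ψ (δ σ) * z)
    (σ : ↥(inertiaCyc P p)) :
    (σ : GQ) (Nm P p z) = ψ (δ σ) ^ (Jset P p).card * Nm P p z := by
  unfold Nm
  rw [map_prod, ← Finset.prod_const, ← Finset.prod_mul_distrib]
  exact Finset.prod_congr rfl fun j _ => apply_tau_char hk ψ hδ hz (tauJ_mem j) σ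

/-- `z` is a unit whose Kummer character on `I'` is `σ ↦ ψ (a β(σ))`. -/
def Wit (P : ValuationSubring Qb) (p : ℕ) (ψ : AddChar k Qb) (β : ↥(inertiaCyc P p) → k)
    (a : k) (z : Qb) : Prop :=
  IsPUnit P z ∧ ∀ σ : ↥(inertiaCyc P p), (σ : GQ) z = ψ (a * β σ) * z

variable {ψ : AddChar k Qb} {β β' : ↥(inertiaCyc P p) → k} {a a' : k} {z z' : Qb}

theorem Wit.pow_fixed (hk : (p : k) = 0) (h : Wit P p ψ β a z) :
    ∀ σ ∈ inertiaCyc P p, σ (z ^ p) = z ^ p := by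
  intro σ hσ
  rw [map_pow, h.2 ⟨σ, hσ⟩, mul_pow, addChar_pow_p hk, one_mul]

theorem Wit.isNrUnit (hk : (p : k) = 0) (h : Wit P p ψ β a z) :
    IsNrUnit P (Nm P p (z ^ p)) :=
  ⟨isPUnit_Nm (isPUnit_pow h.1 p), fun _ hρ => Nm_fixed (h.pow_fixed hk) hρ⟩

theorem Wit.mul (h : Wit P p ψ β a z) (h' : Wit P p ψ β a' z') :
    Wit P p ψ β (a + a') (z * z') := by
  refine ⟨h.1.mul h'.1, fun σ => ?_⟩
  rw [map_mul, h.2 σ, h'.2 σ, add_mul, AddChar.map_add_eq_mul]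
  ring

theorem Wit.div (hk : (p : k) = 0) (h : Wit P p ψ β a z) (h' : Wit P p ψ β' a z') :
    Wit P p ψ (β - β') a (z * z'⁻¹) := by
  refine ⟨h.1.mul (isPUnit_inv h'.1), fun σ => ?_⟩
  have h0 : ψ (a * β' σ) ≠ 0 := addChar_ne_zero_of hk ψ _
  have h1 : ψ (a * β σ) = ψ (a * (β - β') σ) * ψ (a * β' σ) := by
    rw [← AddChar.map_add_eq_mul, Pi.sub_apply]
    congr 1
    ring
  rw [map_mul, map_inv₀, h.2 σ, h'.2 σ, h1, mul_inv]
  field_simp

theorem Wit.frob (hk : (p : k) = 0) {φ : GQ} (hφ : φ ∈ P.decompositionSubgroup ℚ) {e : k}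
    (he : e ≠ 0)
    (hH : ∀ σ σ' : ↥(inertiaCyc P p), (σ : GQ) * φ = φ * (σ' : GQ) → β σ = e * β σ')
    (h : Wit P p ψ β a z) :
    Wit P p ψ β ((((cycP p φ).val : ℕ) : k) * e⁻¹ * a) (φ z) := by
  refine ⟨isPUnit_apply hφ h.1, fun σ => ?_⟩
  set σ' : ↥(inertiaCyc P p) := ⟨φ⁻¹ * σ * φ, conj_mem_inertiaCyc' hφ σ.2⟩ with hσ'
  have hcomm : (σ : GQ) * φ = φ * (σ' : GQ) := by
    show (σ : GQ) * φ = φ * (φ⁻¹ * σ * φ)
    group
  have h1 := hH σ σ' hcomm
  have h2 : (((cycP p φ).val : ℕ) : k) * e⁻¹ * a * β σ = (cycP p φ).val • (a * β σ') := by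
    rw [h1, nsmul_eq_mul]
    field_simp
  calc (σ : GQ) (φ z) = ((σ : GQ) * φ) z := rfl
    _ = (φ * (σ' : GQ)) z := by rw [hcomm]
    _ = φ ((σ' : GQ) z) := rfl
    _ = φ (ψ (a * β σ')) * φ z := by rw [h.2 σ', map_mul]
    _ = ψ (a * β σ') ^ (cycP p φ).val * φ z := by rw [apply_root φ (addChar_pow_p hk ψ _)]
    _ = ψ ((((cycP p φ).val : ℕ) : k) * e⁻¹ * a * β σ) * φ z := by
        rw [h2, AddChar.map_nsmul_eq_pow]

/-- Comparison of the `λ`-values of two witnesses. -/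
theorem lam_wit_eq_add {κ : Type*} [Field κ] {lam : Qb → κ}
    (hmul : ∀ u u', IsNrUnit P u → IsNrUnit P u' → lam (u * u') = lam u + lam u')
    (hk : (p : k) = 0) (h : Wit P p ψ β a z) (h' : Wit P p ψ β' a z') :
    lam (Nm P p (z ^ p)) = lam (Nm P p ((z * z'⁻¹) ^ p)) + lam (Nm P p (z' ^ p)) := by
  rw [← hmul _ _ ((h.div hk h').isNrUnit hk) (h'.isNrUnit hk), ← Nm_mul, ← mul_pow,
    inv_mul_cancel_right₀ h'.1.1]

/-- Two witnesses of the same character have the same `λ`-value. -/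
theorem lam_wit_eq {κ : Type*} [Field κ] {lam : Qb → κ}
    (hmul : ∀ u u', IsNrUnit P u → IsNrUnit P u' → lam (u * u') = lam u + lam u')
    (hpow : ∀ w, IsNrUnit P w → lam (w ^ p) = 0)
    (hk : (p : k) = 0) (h : Wit P p ψ β a z) (h' : Wit P p ψ β a z') :
    lam (Nm P p (z ^ p)) = lam (Nm P p (z' ^ p)) := by
  have hw := h.div hk h'
  have hfix : ∀ σ ∈ inertiaCyc P p, σ (z * z'⁻¹) = z * z'⁻¹ := by
    intro σ hσ
    have h1 := hw.2 ⟨σ, hσ⟩
    rw [Pi.sub_apply, sub_self, mul_zero, AddChar.map_zero_eq_one, one_mul] at h1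
    exact h1
  have hN : IsNrUnit P (Nm P p (z * z'⁻¹)) :=
    ⟨isPUnit_Nm hw.1, fun _ hρ => Nm_fixed hfix hρ⟩
  rw [lam_wit_eq_add hmul hk h h', Nm_pow, hpow _ hN, zero_add]

/-- If the norm of the `p`-th power of a witness is a `p`-th power of an inertia-fixed unit,
the character is trivial. -/
theorem wit_char_eq_one (hk : (p : k) = 0) {δ : ↥(inertiaCyc P p) → k} (hδ : EquivI P p δ)
    {w y : Qb} (hw : Wit P p ψ δ a w) (hy : IsNrUnit P y) (hyw : y ^ p = Nm P p (w ^ p))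
    (σ : ↥(inertiaCyc P p)) : ψ (a * δ σ) = 1 := by
  have hp : p.Prime := Fact.out
  rw [Nm_pow] at hyw
  have hy0 : y ≠ 0 := hy.1.1
  have hN0 : Nm P p w ≠ 0 := Nm_ne_zero hw.1.1
  have hξ : (Nm P p w * y⁻¹) ^ p = 1 := by
    rw [mul_pow, inv_pow, hyw, mul_inv_cancel₀ (pow_ne_zero p hN0)]
  have hσξ : (σ : GQ) (Nm P p w * y⁻¹) = Nm P p w * y⁻¹ := σ.2.2 _ hξ
  have hσy : (σ : GQ) y = y := hy.2 _ σ.2.1
  have hfix : (σ : GQ) (Nm P p w) = Nm P p w := by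
    have e1 : Nm P p w = Nm P p w * y⁻¹ * y := by rw [inv_mul_cancel_right₀ hy0]
    calc (σ : GQ) (Nm P p w) = (σ : GQ) (Nm P p w * y⁻¹ * y) := by rw [← e1]
      _ = Nm P p w * y⁻¹ * y := by rw [map_mul, hσξ, hσy]
      _ = Nm P p w := e1.symm
  have hchar := Nm_char hk ψ (hδ.mul_left a) hw.2 σ
  rw [hfix] at hchar
  have h1 : ψ (a * δ σ) ^ (Jset P p).card = 1 := (mul_eq_right₀ hN0).1 hchar.symm
  have h2 : ψ (a * δ σ) ^ p = 1 := addChar_pow_p hk ψ _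
  have hcop : Nat.gcd (Jset P p).card p = 1 :=
    ((Nat.Prime.coprime_iff_not_dvd hp).2
      (Nat.not_dvd_of_pos_of_lt card_Jset_pos card_Jset_lt)).symm
  have h3 : ψ (a * δ σ) ^ Nat.gcd (Jset P p).card p = 1 := pow_gcd_eq_one.2 ⟨h1, h2⟩
  rwa [hcop, pow_one] at h3

/-- **The Kummer count**: at most `#k` elements in `KumSet`. -/
theorem kumSet_finite_card_le [Finite k] (hk : (p : k) = 0) (hp2 : p ≠ 2)
    (hP : P.LiesOverPrime p) {φ : GQ} (hφ : P.IsFrobeniusAt φ p) {e : k} (he : e ≠ 0) :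
    (KumSet P p k φ e).Finite ∧ Nat.card (KumSet P p k φ e) ≤ Nat.card k := by
  classical
  have hp : p.Prime := Fact.out
  have : NeZero p := ⟨hp.ne_zero⟩
  have hφD : φ ∈ P.decompositionSubgroup ℚ := hφ.mem_decompositionSubgroup
  obtain ⟨lam, hmul, hpow, hroot, hfrob⟩ :=
    exists_unitLam Loc.Basic.unr Loc.Basic.teich Loc.Close.closeRoot p hp2 P hP
  obtain ⟨ψ, hψ⟩ := Fermat.Agent.Lib.FinFlat.exists_addChar_ne_one (V := k) (v := 1) one_ne_zero
  have hκ : CharP (IsLocalRing.ResidueField P) p :=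
    Away.charP_residueField_of_liesOverPrime P hp hP
  have hchar : CharP k p := (CharP.charP_iff_prime_eq_zero hp).mpr hk
  -- witnesses
  have hw : ∀ (β : KumSet P p k φ e) (a : k), ∃ z : Qb,
      Wit P p ψ (β : ↥(inertiaCyc P p) → k) a z := fun β a => by
    obtain ⟨z, hz, hz'⟩ := β.2.2.2 (ψ.mulShift a)
    exact ⟨z, hz, hz'⟩
  choose Z hZ using hw
  set c0 : k := (((cycP p φ).val : ℕ) : k) * e⁻¹ with hc0
  have hc0ne : c0 ≠ 0 := by
    refine mul_ne_zero (fun h => ?_) (inv_ne_zero he)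
    have h1 : p ∣ (cycP p φ).val := (CharP.cast_eq_zero_iff k p _).1 h
    have h2 : (cycP p φ).val = 0 := Nat.eq_zero_of_dvd_of_lt h1 (ZMod.val_lt _)
    exact cycP_ne_zero φ ((ZMod.val_eq_zero _).1 h2)
  let G : KumSet P p k φ e → (k →+ IsLocalRing.ResidueField P) := fun β =>
    AddMonoidHom.mk' (fun a => lam (Nm P p (Z β a ^ p))) (fun a a' => by
      show lam (Nm P p (Z β (a + a') ^ p)) = lam (Nm P p (Z β a ^ p)) + lam (Nm P p (Z β a' ^ p))
      rw [lam_wit_eq hmul hpow hk (hZ β (a + a')) ((hZ β a).mul (hZ β a')), mul_pow, Nm_mul,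
        hmul _ _ ((hZ β a).isNrUnit hk) ((hZ β a').isNrUnit hk)])
  have hGapp : ∀ β a, G β a = lam (Nm P p (Z β a ^ p)) := fun β a => rfl
  have hG : ∀ β x, G β (c0 * x) = G β x ^ p := by
    intro β x
    rw [hGapp, hGapp,
      lam_wit_eq hmul hpow hk (hZ β (c0 * x)) ((hZ β x).frob hk hφD he β.2.2.1), ← map_pow,
      ← Nm_apply_decomp ((hZ β x).pow_fixed hk) hφD]
    exact (hfrob φ hφ _ ((hZ β x).isNrUnit hk)).2
  let Θ : KumSet P p k φ e →
      {A : k →+ IsLocalRing.ResidueField P // ∀ x, A (c0 * x) = A x ^ p} :=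
    fun β => ⟨G β, hG β⟩
  have hΘ : Function.Injective Θ := by
    intro β β' hββ
    have hGG : G β = G β' := congrArg Subtype.val hββ
    apply Subtype.ext
    funext σ
    by_contra hne
    have hne' : (β : ↥(inertiaCyc P p) → k) σ - (β' : ↥(inertiaCyc P p) → k) σ ≠ 0 :=
      sub_ne_zero.2 hne
    set a : k := ((β : ↥(inertiaCyc P p) → k) σ - (β' : ↥(inertiaCyc P p) → k) σ)⁻¹ with ha
    have h1 : lam (Nm P p (Z β a ^ p)) = lam (Nm P p (Z β' a ^ p)) := by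
      rw [← hGapp, ← hGapp, hGG]
    have h2 := lam_wit_eq_add hmul hk (hZ β a) (hZ β' a)
    rw [h1] at h2
    have h3 : lam (Nm P p ((Z β a * (Z β' a)⁻¹) ^ p)) = 0 := by
      have := h2.symm
      rwa [add_eq_right] at this
    have hwit := (hZ β a).div hk (hZ β' a)
    obtain ⟨y, hy, hyp⟩ := hroot _ (hwit.isNrUnit hk) h3
    have h4 := wit_char_eq_one hk (β.2.1.sub β'.2.1) hwit hy hyp σ
    rw [Pi.sub_apply, ha, inv_mul_cancel₀ hne'] at h4
    exact hψ h4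
  obtain ⟨hfin, hcard⟩ := Fermat.Agent.Lib.FrobFixed.finite_and_card_frobTwisted_le (p := p)
    (V₀ := k) (κ := IsLocalRing.ResidueField P)
    (fun x => by rw [nsmul_eq_mul, hk, zero_mul]) (fun x => c0 * x)
    (fun y => ⟨c0⁻¹ * y, by show c0 * (c0⁻¹ * y) = y; rw [mul_inv_cancel_left₀ hc0ne]⟩)
  have hfinK : Finite (KumSet P p k φ e) := Finite.of_injective Θ hΘ
  exact ⟨Set.toFinite _, (Nat.card_le_card_of_injective Θ hΘ).trans hcard⟩

end Kum

end

end Fermat.Agent.TW.Flat.OrdCnt
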