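import Mathlib
import Fermat.Agent.TW.Flat.OrdCount.Cocycle
import Fermat.Agent.TW.Flat.OrdCount.Kummer
import Fermat.Agent.Lib.FrobeniusExists

/-!
# FLAT-ORD-COUNT, the count

`L0` = ordinary flat cocycles of the decomposition group, `N0 ≤ L0` those killing `v0`.

* `card_L0_le` : `#L0 ≤ #k · #N0` (the diagonal part is an unramified additive character, determined
  by its value at a Frobenius element);
* `card_N0_le` : `#N0 ≤ #k²` (a cocycle in `N0` is `β · E_{v0}`; `β` is determined by its value at an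
  element of inertia with `det ≠ 1` and its restriction to `I'`, which lies in `KumSet`).
-/

set_option autoImplicit false
set_option linter.unusedSectionVars false

namespace Fermat.Agent.TW.Flat.OrdCnt

open Fermat.Agent.S53 Fermat.Agent.TW Fermat.Agent.TW.StrictOrd Fermat.Agent.TW.Flat

local notation "Qb" => AlgebraicClosure ℚ

noncomputable section

/-- An additive level-constant function on the decomposition group which vanishes on inertia and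
at a Frobenius element vanishes. -/
theorem eq_zero_of_add_of_procyclic {A : Type*} [AddCommGroup A] (P : ValuationSubring Qb)
    (φ : GQ) (hφ : φ ∈ P.decompositionSubgroup ℚ) (hproc : Away.ProcyclicAt P φ)
    (f : ↥(P.decompositionSubgroup ℚ) → A) (hadd : ∀ σ τ, f (σ * τ) = f σ + f τ)
    (hlev : LevelConstOn (P.decompositionSubgroup ℚ) f)
    (hI : ∀ σ : ↥(P.decompositionSubgroup ℚ), (σ : GQ) ∈ P.inertiaSubgroupIn ℚ → f σ = 0)
    (hφ0 : f ⟨φ, hφ⟩ = 0) : ∀ σ, f σ = 0 := by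
  obtain ⟨F, hF, h3⟩ := hlev
  have hpow : ∀ j : ℕ, f (⟨φ, hφ⟩ ^ j) = 0 := by
    intro j
    induction j with
    | zero =>
      have h := hadd 1 1
      rw [mul_one] at h
      rw [pow_zero]
      exact left_eq_add.1 h
    | succ j ih => rw [pow_succ, hadd, ih, hφ0, add_zero]
  intro σ
  obtain ⟨j, τ, hτ, hx⟩ := hproc F hF σ σ.2
  let τ' : ↥(P.decompositionSubgroup ℚ) := ⟨τ, Away.inertiaSubgroupIn_le P hτ⟩
  let g : ↥(P.decompositionSubgroup ℚ) := ⟨φ, hφ⟩ ^ j * τ'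
  have hs : ∀ x ∈ F, ((g⁻¹ * σ : ↥(P.decompositionSubgroup ℚ)) : GQ) x = x := by
    intro x hxF
    have hg : (g : GQ) = φ ^ j * τ := rfl
    show (g : GQ)⁻¹ ((σ : GQ) x) = x
    rw [hx x hxF, ← hg]
    exact Away.gq_inv_apply_apply _ _
  have e : σ = g * (g⁻¹ * σ) := by group
  rw [e, h3 g _ hs]
  show f (⟨φ, hφ⟩ ^ j * τ') = 0
  rw [hadd, hpow, hI τ' hτ, add_zero]

variable {k : Type} [Field k] {rb : GQ →* Mat2 k} {P : ValuationSubring Qb} {p : ℕ}
  {v0 : Fin 2 → k}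

/-- The adjoint action preserves "`X v = d v`" for an eigenvector `v` of `rb σ`. -/
theorem adAct_mulVec_of_eigen (rb : GQ →* Mat2 k) (σ : GQ) {v : Fin 2 → k} (hv : v ≠ 0) (a : k)
    (ha : (rb σ).mulVec v = a • v) (X : Mat2 k) (d : k) (hd : X.mulVec v = d • v) :
    (adAct rb 1 σ X).mulVec v = d • v := by
  have ha0 := eigen_ne_zero rb σ hv a ha
  rw [adAct_apply, one_hom_apply_coe, one_smul, ← Matrix.mulVec_mulVec, ← Matrix.mulVec_mulVec,
    rb_inv_mulVec rb σ a ha0 ha, Matrix.mulVec_smul, hd, Matrix.mulVec_smul, Matrix.mulVec_smul,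
    ha, smul_smul, smul_smul, mul_right_comm, inv_mul_cancel₀ ha0, one_mul]

/-- The diagonal part of an ordinary flat cocycle is additive. -/
theorem mulVec_add_of_mem_L0 (hsh : OrdShape rb P v0)
    {c : ↥(P.decompositionSubgroup ℚ) → Mat2 k} (hc : c ∈ L0 rb P p v0)
    (σ τ : ↥(P.decompositionSubgroup ℚ)) :
    (c (σ * τ)).mulVec v0 = (c σ).mulVec v0 + (c τ).mulVec v0 := by
  obtain ⟨a, ha⟩ := hsh.2.1 σ σ.2
  obtain ⟨d, hd⟩ := hc.2.1 τ
  rw [hc.1.2.1 σ τ, Matrix.add_mulVec, adAct_mulVec_of_eigen rb σ hsh.1 a ha _ d hd, hd]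

/-- Ordinary flat cocycles killing `v0`. -/
def N0 (rb : GQ →* Mat2 k) (P : ValuationSubring Qb) (p : ℕ) (v0 : Fin 2 → k) :
    Submodule k (↥(P.decompositionSubgroup ℚ) → Mat2 k) where
  carrier := {c | c ∈ L0 rb P p v0 ∧ ∀ σ, (c σ).mulVec v0 = 0}
  add_mem' := fun h h' => ⟨add_mem h.1 h'.1, fun σ => by
    rw [Pi.add_apply, Matrix.add_mulVec, h.2 σ, h'.2 σ, add_zero]⟩
  zero_mem' := ⟨zero_mem _, fun σ => by rw [Pi.zero_apply, Matrix.zero_mulVec]⟩
  smul_mem' := fun a _ h => ⟨Submodule.smul_mem _ a h.1, fun σ => by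
    rw [Pi.smul_apply, Matrix.smul_mulVec, h.2 σ, smul_zero]⟩

theorem mem_N0 (c : ↥(P.decompositionSubgroup ℚ) → Mat2 k) :
    c ∈ N0 rb P p v0 ↔ c ∈ L0 rb P p v0 ∧ ∀ σ, (c σ).mulVec v0 = 0 := Iff.rfl

/-- Stage 1: `#L0 ≤ #k · #N0`. -/
theorem card_L0_le [Finite k] [Fact p.Prime] (hsh : OrdShape rb P v0) (hP : P.LiesOverPrime p)
    (hfin : Finite (N0 rb P p v0)) :
    Finite (L0 rb P p v0) ∧ Nat.card (L0 rb P p v0) ≤ Nat.card k * Nat.card (N0 rb P p v0) := by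
  have hp : p.Prime := Fact.out
  obtain ⟨φ, hφ⟩ := Fermat.Agent.Lib.FrobeniusExists.exists_isFrobeniusAt_of_liesOverPrime hp P hP
  have hφD : φ ∈ P.decompositionSubgroup ℚ := hφ.mem_decompositionSubgroup
  have hproc := Away.procyclicAt_of_isFrobeniusAt hp P hP φ hφ
  obtain ⟨i₀, hi₀⟩ : ∃ i, v0 i ≠ 0 := by
    by_contra h
    exact hsh.1 (funext fun i => not_not.1 fun hi => h ⟨i, hi⟩)
  let ev : L0 rb P p v0 →+ k :=
    { toFun := fun c => ((c : ↥(P.decompositionSubgroup ℚ) → Mat2 k) ⟨φ, hφD⟩).mulVec v0 i₀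
      map_zero' := by
        show ((0 : ↥(P.decompositionSubgroup ℚ) → Mat2 k) ⟨φ, hφD⟩).mulVec v0 i₀ = 0
        rw [Pi.zero_apply, Matrix.zero_mulVec, Pi.zero_apply]
      map_add' := fun c c' => by
        show (((c : ↥(P.decompositionSubgroup ℚ) → Mat2 k) +
          (c' : ↥(P.decompositionSubgroup ℚ) → Mat2 k)) ⟨φ, hφD⟩).mulVec v0 i₀ = _
        rw [Pi.add_apply, Matrix.add_mulVec, Pi.add_apply] }
  have hker : ∀ c : ev.ker,
      ((c : L0 rb P p v0) : ↥(P.decompositionSubgroup ℚ) → Mat2 k) ∈ N0 rb P p v0 := by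
    intro c
    have hc := (c : L0 rb P p v0).2
    refine ⟨hc, ?_⟩
    obtain ⟨F, hF, h3⟩ := hc.1.2.2
    refine eq_zero_of_add_of_procyclic P φ hφD hproc
      (fun σ => (((c : L0 rb P p v0) : ↥(P.decompositionSubgroup ℚ) → Mat2 k) σ).mulVec v0)
      (mulVec_add_of_mem_L0 hsh hc) ⟨F, hF, fun g s hs => ?_⟩
      (fun σ hσ => mulVec_self_eq_zero_of_image hsh.1 _ (hc.1.1 σ) (hc.2.2.1 σ hσ)) ?_
    · show (((c : L0 rb P p v0) : ↥(P.decompositionSubgroup ℚ) → Mat2 k) (g * s)).mulVec v0 = _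
      rw [h3 g s hs]
    · obtain ⟨d, hd⟩ := hc.2.1 ⟨φ, hφD⟩
      have h0 : ev c = 0 := c.2
      have h1 : (((c : L0 rb P p v0) : ↥(P.decompositionSubgroup ℚ) → Mat2 k)
          ⟨φ, hφD⟩).mulVec v0 i₀ = 0 := h0
      rw [hd, Pi.smul_apply, smul_eq_mul] at h1
      have hd0 : d = 0 := (mul_eq_zero.1 h1).resolve_right hi₀
      show (((c : L0 rb P p v0) : ↥(P.decompositionSubgroup ℚ) → Mat2 k) ⟨φ, hφD⟩).mulVec v0 = 0
      rw [hd, hd0, zero_smul]
  let ι : ev.ker → N0 rb P p v0 := fun c => ⟨_, hker c⟩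
  have hι : Function.Injective ι := by
    intro c c' h
    have h2 : ((c : L0 rb P p v0) : ↥(P.decompositionSubgroup ℚ) → Mat2 k) =
        ((c' : L0 rb P p v0) : ↥(P.decompositionSubgroup ℚ) → Mat2 k) :=
      congrArg (fun z : N0 rb P p v0 => (z : ↥(P.decompositionSubgroup ℚ) → Mat2 k)) h
    exact Subtype.ext (Subtype.ext h2)
  have h1 := card_eq_card_ker_mul_card_range ev
  have hkerfin : Finite ev.ker := Finite.of_injective ι hι
  have hr : Nat.card ev.range ≤ Nat.card k :=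
    Nat.card_le_card_of_injective _ Subtype.val_injective
  have hk' : Nat.card ev.ker ≤ Nat.card (N0 rb P p v0) := Nat.card_le_card_of_injective ι hι
  have hpos : Nat.card (L0 rb P p v0) ≠ 0 := by
    rw [h1]
    exact mul_ne_zero Nat.card_pos.ne' Nat.card_pos.ne'
  refine ⟨Nat.finite_of_card_ne_zero hpos, ?_⟩
  calc Nat.card (L0 rb P p v0) = Nat.card ev.ker * Nat.card ev.range := h1
    _ ≤ Nat.card (N0 rb P p v0) * Nat.card k := Nat.mul_le_mul hk' hr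
    _ = Nat.card k * Nat.card (N0 rb P p v0) := mul_comm _ _

/-! ### Stage 2 -/

/-- The coefficient of `E_{v0}` (read off at an entry `(i, j)` where `E_{v0}` does not vanish). -/
def bet (v0 : Fin 2 → k) (i j : Fin 2) (c : ↥(P.decompositionSubgroup ℚ) → Mat2 k)
    (σ : ↥(P.decompositionSubgroup ℚ)) : k := c σ i j / Emat v0 i j

theorem bet_sub (i j : Fin 2) (c c' : ↥(P.decompositionSubgroup ℚ) → Mat2 k)
    (σ : ↥(P.decompositionSubgroup ℚ)) :
    bet v0 i j (c - c') σ = bet v0 i j c σ - bet v0 i j c' σ := by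
  unfold bet
  rw [Pi.sub_apply, Matrix.sub_apply, sub_div]

theorem N0_form (hsh : OrdShape rb P v0) {i j : Fin 2} (hij : Emat v0 i j ≠ 0)
    {c : ↥(P.decompositionSubgroup ℚ) → Mat2 k} (hc : c ∈ N0 rb P p v0)
    (σ : ↥(P.decompositionSubgroup ℚ)) : c σ = bet v0 i j c σ • Emat v0 := by
  obtain ⟨f, hf⟩ := exists_eq_smul_Emat hsh.1 _ (hc.1.1.1 σ) (hc.2 σ)
  unfold bet
  rw [hf, Matrix.smul_apply, smul_eq_mul, mul_div_cancel_right₀ _ hij]

theorem bet_mul (hsh : OrdShape rb P v0) {i j : Fin 2} (hij : Emat v0 i j ≠ 0)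
    {c : ↥(P.decompositionSubgroup ℚ) → Mat2 k} (hc : c ∈ N0 rb P p v0)
    (σ τ : ↥(P.decompositionSubgroup ℚ)) (x : k)
    (hx : adAct rb 1 (σ : GQ) (Emat v0) = x • Emat v0) :
    bet v0 i j c (σ * τ) = bet v0 i j c σ + x * bet v0 i j c τ := by
  have h1 : c (σ * τ) = (bet v0 i j c σ + x * bet v0 i j c τ) • Emat v0 := by
    rw [hc.1.1.2.1 σ τ, N0_form hsh hij hc τ, map_smul, hx, N0_form hsh hij hc σ, smul_smul,
      ← add_smul, mul_comm x]
  unfold bet at h1 ⊢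
  rw [h1, Matrix.smul_apply, smul_eq_mul, mul_div_cancel_right₀ _ hij]

/-- Vanishing: a cocycle in `N0` whose coefficient vanishes at an element `σ₀` of inertia with
`det ≠ 1` and on `I'` is zero. -/
theorem N0_eq_zero [Fact p.Prime] (hres : ResidualHyp rb p) (hsh : OrdShape rb P v0)
    {i j : Fin 2} (hij : Emat v0 i j ≠ 0) {c : ↥(P.decompositionSubgroup ℚ) → Mat2 k}
    (hc : c ∈ N0 rb P p v0) {σ₀ : GQ} (hσ₀ : σ₀ ∈ P.inertiaSubgroupIn ℚ)
    (hdet : (rb σ₀).det ≠ 1)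
    (h0 : bet v0 i j c ⟨σ₀, mem_decomp_of_mem_inertia hσ₀⟩ = 0)
    (hI' : ∀ σ : ↥(P.decompositionSubgroup ℚ), (σ : GQ) ∈ inertiaCyc P p → bet v0 i j c σ = 0) :
    c = 0 := by
  funext τ
  rw [N0_form hsh hij hc τ]
  suffices h : bet v0 i j c τ = 0 by
    rw [h, zero_smul]
    rfl
  obtain ⟨s₀, hs₀⟩ : ∃ s₀ : ↥(P.decompositionSubgroup ℚ),
      s₀ = ⟨σ₀, mem_decomp_of_mem_inertia hσ₀⟩ := ⟨_, rfl⟩
  rw [← hs₀] at h0
  have hs₀' : (s₀ : GQ) = σ₀ := by rw [hs₀]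
  obtain ⟨ι, hι⟩ : ∃ ι : ↥(P.decompositionSubgroup ℚ), ι = τ * s₀ * τ⁻¹ * s₀⁻¹ := ⟨_, rfl⟩
  have hιmem : (ι : GQ) ∈ inertiaCyc P p := by
    rw [hι]
    show (τ : GQ) * (s₀ : GQ) * (τ : GQ)⁻¹ * (s₀ : GQ)⁻¹ ∈ inertiaCyc P p
    rw [hs₀', mem_inertiaCyc_iff_cycP]
    refine ⟨mul_mem (Away.conj_mem_inertiaSubgroupIn P τ.2 hσ₀) (inv_mem hσ₀), ?_⟩
    rw [cycP_mul, cycP_mul, cycP_mul, cycP_inv, cycP_inv, mul_right_comm (cycP p (τ : GQ)),
      mul_inv_cancel₀ (cycP_ne_zero _), one_mul, mul_inv_cancel₀ (cycP_ne_zero _)]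
  have hcomm : τ * s₀ = ι * (s₀ * τ) := by
    rw [hι]
    group
  obtain ⟨aτ, haτ⟩ := hsh.2.1 τ τ.2
  have e1 := bet_mul hsh hij hc τ s₀ _ (adAct_Emat_of_eigen rb τ v0 aτ haτ)
  have hn : adAct rb 1 (s₀ : GQ) (Emat v0) = (((cycP p σ₀).val : ℕ) : k) • Emat v0 := by
    rw [hs₀']
    exact adAct_Emat_of_mem_inertia hres hsh hσ₀ _ (fun μ hμ => apply_root σ₀ hμ)
  have e2 := bet_mul hsh hij hc s₀ τ _ hn
  have e3 := bet_mul hsh hij hc ι (s₀ * τ) 1 (by
    rw [one_smul]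
    exact adAct_Emat_of_mem_inertiaCyc hres hsh hιmem)
  have hdet' : (rb σ₀).det = (((cycP p σ₀).val : ℕ) : k) :=
    hres.detCyc σ₀ _ (fun μ hμ => apply_root σ₀ hμ)
  rw [hcomm, e3, e2, hI' ι hιmem, h0] at e1
  have h2 : ((rb σ₀).det - 1) * bet v0 i j c τ = 0 := by
    rw [hdet']
    linear_combination e1
  exact (mul_eq_zero.1 h2).resolve_left (sub_ne_zero.2 hdet)

/-- Stage 2: `#N0 ≤ #k²`. -/
theorem card_N0_le [Finite k] [Fact p.Prime] (hp2 : p ≠ 2) (hres : ResidualHyp rb p)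
    (hsh : OrdShape rb P v0) (hP : P.LiesOverPrime p) :
    Finite (N0 rb P p v0) ∧ Nat.card (N0 rb P p v0) ≤ Nat.card k ^ 2 := by
  have hp : p.Prime := Fact.out
  obtain ⟨φ, hφ⟩ := Fermat.Agent.Lib.FrobeniusExists.exists_isFrobeniusAt_of_liesOverPrime hp P hP
  have hφD : φ ∈ P.decompositionSubgroup ℚ := hφ.mem_decompositionSubgroup
  obtain ⟨σ₀, hσ₀, hdet⟩ := exists_inertia_det_ne_one rb p hp2 hres P hP
  obtain ⟨i, j, hij⟩ : ∃ i j, Emat v0 i j ≠ 0 := by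
    by_contra h
    exact Emat_ne_zero hsh.1 (Matrix.ext fun i j => not_not.1 fun hij => h ⟨i, j, hij⟩)
  obtain ⟨aφ, haφ⟩ := hsh.2.1 φ hφD
  have haφ0 := eigen_ne_zero rb φ hsh.1 aφ haφ
  obtain ⟨eφ, heφ⟩ : ∃ eφ : k, eφ = aφ * aφ / (rb φ).det := ⟨_, rfl⟩
  have heφ0 : eφ ≠ 0 := by
    rw [heφ]
    exact div_ne_zero (mul_ne_zero haφ0 haφ0) (det_rb_ne_zero rb φ)
  have hEφ : adAct rb 1 φ (Emat v0) = eφ • Emat v0 := by
    rw [heφ]
    exact adAct_Emat_of_eigen rb φ v0 aφ haφ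
  obtain ⟨hKfin, hKcard⟩ := kumSet_finite_card_le (P := P) hres.charP hp2 hP hφ heφ0
  let toD : ↥(inertiaCyc P p) → ↥(P.decompositionSubgroup ℚ) :=
    fun σ => ⟨σ, mem_decomp_of_mem_inertia σ.2.1⟩
  have hmemK : ∀ c : N0 rb P p v0,
      (fun σ : ↥(inertiaCyc P p) =>
        bet v0 i j (c : ↥(P.decompositionSubgroup ℚ) → Mat2 k) (toD σ)) ∈ KumSet P p k φ eφ := by
    intro c
    refine ⟨?_, ?_, ?_⟩
    · intro τ hτ n hn σ σ' hcomm
      let τD : ↥(P.decompositionSubgroup ℚ) := ⟨τ, mem_decomp_of_mem_inertia hτ⟩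
      have hc1 : toD σ * τD = τD * toD σ' := Subtype.ext hcomm
      have e1 := bet_mul hsh hij c.2 (toD σ) τD 1 (by
        rw [one_smul]
        exact adAct_Emat_of_mem_inertiaCyc hres hsh σ.2)
      have e2 := bet_mul hsh hij c.2 τD (toD σ') (n : k)
        (adAct_Emat_of_mem_inertia hres hsh hτ n hn)
      rw [hc1, e2] at e1
      show bet v0 i j (c : ↥(P.decompositionSubgroup ℚ) → Mat2 k) (toD σ) =
        (n : k) * bet v0 i j (c : ↥(P.decompositionSubgroup ℚ) → Mat2 k) (toD σ')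
      linear_combination -e1
    · intro σ σ' hcomm
      let φD : ↥(P.decompositionSubgroup ℚ) := ⟨φ, hφD⟩
      have hc1 : toD σ * φD = φD * toD σ' := Subtype.ext hcomm
      have e1 := bet_mul hsh hij c.2 (toD σ) φD 1 (by
        rw [one_smul]
        exact adAct_Emat_of_mem_inertiaCyc hres hsh σ.2)
      have e2 := bet_mul hsh hij c.2 φD (toD σ') eφ hEφ
      rw [hc1, e2] at e1
      show bet v0 i j (c : ↥(P.decompositionSubgroup ℚ) → Mat2 k) (toD σ) =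
        eφ * bet v0 i j (c : ↥(P.decompositionSubgroup ℚ) → Mat2 k) (toD σ')
      linear_combination -e1
    · intro ψ
      let f : Mat2 k →+ k := AddMonoidHom.mk' (fun X => X i j / Emat v0 i j)
        (fun X Y => by rw [Matrix.add_apply, add_div])
      obtain ⟨z, hz, hz'⟩ := c.2.1.2.2.2 (ψ.compAddMonoidHom f)
      exact ⟨z, hz, fun σ => hz' (toD σ) σ.2⟩
  let s₀ : ↥(P.decompositionSubgroup ℚ) := ⟨σ₀, mem_decomp_of_mem_inertia hσ₀⟩
  let Ξ : N0 rb P p v0 → k × KumSet P p k φ eφ := fun c =>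
    (bet v0 i j (c : ↥(P.decompositionSubgroup ℚ) → Mat2 k) s₀, ⟨_, hmemK c⟩)
  have hΞ : Function.Injective Ξ := by
    intro c c' h
    have h1 : bet v0 i j (c : ↥(P.decompositionSubgroup ℚ) → Mat2 k) s₀ =
        bet v0 i j (c' : ↥(P.decompositionSubgroup ℚ) → Mat2 k) s₀ := congrArg Prod.fst h
    have h2 : (fun σ : ↥(inertiaCyc P p) =>
        bet v0 i j (c : ↥(P.decompositionSubgroup ℚ) → Mat2 k) (toD σ)) =
        (fun σ : ↥(inertiaCyc P p) =>
          bet v0 i j (c' : ↥(P.decompositionSubgroup ℚ) → Mat2 k) (toD σ)) :=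
      congrArg (fun z : k × KumSet P p k φ eφ => (z.2 : ↥(inertiaCyc P p) → k)) h
    have hd : ((c : ↥(P.decompositionSubgroup ℚ) → Mat2 k) -
        (c' : ↥(P.decompositionSubgroup ℚ) → Mat2 k)) ∈ N0 rb P p v0 := sub_mem c.2 c'.2
    have hzero := N0_eq_zero hres hsh hij hd hσ₀ hdet (by rw [bet_sub]; exact sub_eq_zero.2 h1)
      (fun σ hσ => by
        rw [bet_sub]
        exact sub_eq_zero.2 (congrFun h2 ⟨σ, hσ⟩))
    exact Subtype.ext (sub_eq_zero.1 hzero)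
  have hKfin' : Finite (KumSet P p k φ eφ) := hKfin.to_subtype
  have hfinN : Finite (N0 rb P p v0) := Finite.of_injective Ξ hΞ
  refine ⟨hfinN, ?_⟩
  calc Nat.card (N0 rb P p v0) ≤ Nat.card (k × KumSet P p k φ eφ) :=
        Nat.card_le_card_of_injective Ξ hΞ
    _ = Nat.card k * Nat.card (KumSet P p k φ eφ) := Nat.card_prod _ _
    _ ≤ Nat.card k * Nat.card k := Nat.mul_le_mul_left _ hKcard
    _ = Nat.card k ^ 2 := (sq _).symm

/-- `#LOrd ≤ #k⁴`. -/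
theorem card_LOrd_le_pow [Finite k] [Fact p.Prime] (hp2 : p ≠ 2) (hres : ResidualHyp rb p)
    (hsh : OrdShape rb P v0) (hpeu : PeuRam rb P p) (hP : P.LiesOverPrime p) :
    Finite (LOrd rb P p v0) ∧ Nat.card (LOrd rb P p v0) ≤ Nat.card k ^ 4 := by
  obtain ⟨hN, hNc⟩ := card_N0_le hp2 hres hsh hP
  obtain ⟨hL, hLc⟩ := card_L0_le hsh hP hN
  refine card_LOrd_le hres hsh hpeu hL (hLc.trans ?_)
  calc Nat.card k * Nat.card (N0 rb P p v0) ≤ Nat.card k * Nat.card k ^ 2 :=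
        Nat.mul_le_mul_left _ hNc
    _ = Nat.card k ^ 3 := by ring

end

end Fermat.Agent.TW.Flat.OrdCnt
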